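/-
LSc / Xfer / BaseChange  (helper1)

Abstract base change for a commutative square of function fields over `K`

      a' : E₀ → E            (top: the degeneracy map at the auxiliary level)
      p₀ ↑      ↑ p
      a  : F₀ → F            (bottom: the degeneracy map at the given level)

with `p ∘ a = a' ∘ p₀`, under the NORM COMPATIBILITY `N_{a'} (p f) = p₀ (N_a f)`: for a TORSION
class `x ∈ Pic⁰(F)`, `a'_* (p^* x) = p₀^* (a_* x)` (the divisor group is torsion free, so the
identity `n · (a'_* p^* D - p₀^* a_* D) = div (N_{a'} (p f)) - div (p₀ (N_a f)) = 0` suffices; no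
place-level base change is needed).
-/
import Mathlib
import Fermat.Agent.LSb.Xfer.PushPull
import Fermat.Agent.S29lib.D.KummerCorr

set_option autoImplicit false
set_option linter.style.haveILetI false
set_option linter.unusedSectionVars false

noncomputable section

namespace Fermat.Agent.LSc.Xfer

open AlgebraicCurve Fermat.Agent.S29lib.D Fermat.Agent.LSb.Xfer

variable {K F₀ F E₀ E : Type*} [Field K] [Field F₀] [Field F] [Field E₀] [Field E]
  [Algebra K F₀] [Algebra K F] [Algebra K E₀] [Algebra K E]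
  [HasPrincipalDivisors K F] [HasPrincipalDivisors K E₀] [HasPrincipalDivisors K E]
variable (a : F₀ →ₐ[K] F) (a' : E₀ →ₐ[K] E) (p₀ : F₀ →ₐ[K] E₀) (p : F →ₐ[K] E)
variable (ha : a.toRingHom.IsIntegral) (ha' : a'.toRingHom.IsIntegral)
  (hp₀ : p₀.toRingHom.IsIntegral) (hp : p.toRingHom.IsIntegral)
variable (hfin : FiniteAlong K a) (hN : NormFormulaAlong K a hfin)
  (hfin' : FiniteAlong K a') (hN' : NormFormulaAlong K a' hfin')

include hN hN' in
/-- **base change on divisors with a principal multiple** -/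
theorem pushforward_pullback_eq_of_norm {n : ℤ} (hn : n ≠ 0) {f : F} (hf : f ≠ 0)
    (hNC : normAlong a' (p f) = p₀ (normAlong a f))
    {D : Divisor K F} (hD : ∀ v : Place K F, n * D v = v.ord f) :
    Divisor.pushforwardAlong a' ha' (Divisor.pullbackAlong p hp D) =
      Divisor.pullbackAlong p₀ hp₀ (Divisor.pushforwardAlong a ha D) := by
  have h1 : ∀ v : Place K F, (n • D) v = v.ord f := fun v => by
    rw [Finsupp.smul_apply, smul_eq_mul, hD v]
  have hpf : p f ≠ 0 := (map_ne_zero p).2 hf
  apply Finsupp.ext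
  intro v
  have hL := pushforwardAlong_apply_eq_ord a' ha' hfin' hN' hpf
    (E := Divisor.pullbackAlong p hp (n • D))
    (fun w => pullbackAlong_apply_eq_ord p hp h1 w) v
  have hR := pullbackAlong_apply_eq_ord p₀ hp₀ (f := normAlong a f)
    (D := Divisor.pushforwardAlong a ha (n • D))
    (fun u => pushforwardAlong_apply_eq_ord a ha hfin hN hf h1 u) v
  rw [hNC, ← hR, map_zsmul, map_zsmul, map_zsmul, map_zsmul, Finsupp.smul_apply,
    Finsupp.smul_apply, smul_eq_mul, smul_eq_mul] at hL
  exact mul_left_cancel₀ hn hL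

variable (hFIp₀ : FundamentalIdentityAlong K p₀ hp₀) (hFIp : FundamentalIdentityAlong K p hp)

include hN hN' in
/-- **base change on torsion classes**: `a'_* (p^* x) = p₀^* (a_* x)` -/
theorem pic0_pushforward_pullback_eq_of_norm
    (hNC : ∀ f : F, normAlong a' (p f) = p₀ (normAlong a f))
    {n : ℕ} (hn : n ≠ 0) {x : Pic0 K F} (hx : (n : ℤ) • x = 0) :
    pic0PushforwardAlong a' ha' hfin' hN' (pic0PullbackAlong p hp hFIp x) =
      pic0PullbackAlong p₀ hp₀ hFIp₀ (pic0PushforwardAlong a ha hfin hN x) := by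
  obtain ⟨f, hf, D, rfl, hD⟩ := exists_kummerRel hx
  rw [pic0PullbackAlong_mk, pic0PushforwardAlong_mk, pic0PushforwardAlong_mk,
    pic0PullbackAlong_mk]
  refine congrArg Pic0.mk (Subtype.ext ?_)
  exact pushforward_pullback_eq_of_norm a a' p₀ p ha ha' hp₀ hp hfin hN hfin' hN'
    (Int.natCast_ne_zero.2 hn) hf (hNC f) hD

end Fermat.Agent.LSc.Xfer
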