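/-
LSc / Xfer / NormCompat  (helper1)

NORM COMPATIBILITY for the square of modular function fields (`N ∣ N'`, `q` prime, `q ∤ N'`)

      α' : FBar N' → FBar (N' q)
      ι₀ ↑            ↑ ι
      α  : FBar N  → FBar (N q)

(`ι₀`, `ι` the level inclusions `V.inclL`): `N_{α'} (ι f) = ι₀ (N_α f)` for `f ∈ FBar (N q)`.
Proof by the analytic norm formula `H.toMer_norm_alpha` at the two levels: both sides become
`∏_{x ∈ P¹(𝔽_q)} F ∘ g_x` with `F` the `Γ₀(N q)`-invariant function of `f`, and the representatives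
`g'_x ∈ Γ₀(N') ⊆ Γ₀(N)`, `g_x ∈ Γ₀(N)` of `x` differ by an element of `Γ₀(N q)`.
-/
import Mathlib
import Fermat.Agent.S18lib.V.GaussU.Level2
import Fermat.Agent.S29lib.H.HeckeNorm
import Fermat.Agent.S29lib.D.KummerCorr

set_option autoImplicit false
set_option linter.style.haveILetI false
set_option linter.unusedSectionVars false

noncomputable section

namespace Fermat.Agent.LSc.Xfer

open UpperHalfPlane Matrix.SpecialLinearGroup Fermat.Agent.ProgramR CongruenceSubgroup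
  ModularCurve AlgebraicCurve
open Fermat.Agent.ProgramR.BarField Fermat.Agent.S16lib.LH Fermat.Agent.S29lib.H
  Fermat.Agent.S29lib.D Fermat.Agent.S18lib
open scoped MatrixGroups

local notation "Qb" => AlgebraicClosure ℚ

/-- the level inclusion is the prelude's `α` when the upper level is syntactically `N * m` -/
theorem inclL_dvd_mul_right (N m : ℕ) [NeZero N] [NeZero m] [NeZero (N * m)]
    (x : S18lib.FBar N) :
    V.inclL (Dvd.intro m rfl : N ∣ N * m) x = heckeAlphaBar Qb N m x :=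
  Subtype.ext (by rw [V.coe_inclL, coe_heckeAlphaBar])

theorem Gamma0_le_of_dvd {N N' : ℕ} (h : N ∣ N') : Gamma0 N' ≤ Gamma0 N := by
  intro γ hγ
  rw [Gamma0_mem] at hγ ⊢
  have h3 := (ZMod.intCast_zmod_eq_zero_iff_dvd (γ 1 0) N').mp hγ
  exact (ZMod.intCast_zmod_eq_zero_iff_dvd (γ 1 0) N).mpr
    (dvd_trans (Int.natCast_dvd_natCast.mpr h) h3)

variable {N N' : ℕ} [NeZero N] [NeZero N']

/-- the comparison maps `ΦBar` are compatible with the level inclusions (inside `Mer`) -/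
theorem toMer_ΦBar_inclL (e : Qb →+* ℂ) (h : N ∣ N') (x : S18lib.FBar N) :
    toMer (Gamma0 N') (ΦBar N' e (V.inclL h x)) = toMer (Gamma0 N) (ΦBar N e x) := by
  obtain ⟨m, rfl⟩ := h
  haveI : NeZero m := ⟨fun h0 => NeZero.ne (N * m) (by rw [h0, mul_zero])⟩
  rw [inclL_dvd_mul_right N m x, ← alphaAn_ΦBar, toMer_alphaAn]

variable {q : ℕ} [Fact q.Prime]

/-- the two representatives of `x ∈ P¹(𝔽_q)` at the levels `N'` and `N` differ by an element of
`Γ₀(N q)` -/
theorem exists_alphaRep_eq_mul (h : N ∣ N') (hq' : ¬ q ∣ N') (hq : ¬ q ∣ N)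
    (x : OnePoint (ZMod q)) :
    ∃ c : SL(2, ℤ), c ∈ Gamma0 (N * q) ∧
      ((alphaRep hq' x : Gamma0 N') : SL(2, ℤ)) = c * ((alphaRep hq x : Gamma0 N) : SL(2, ℤ)) := by
  set r' : Gamma0 N := ⟨((alphaRep hq' x : Gamma0 N') : SL(2, ℤ)),
    Gamma0_le_of_dvd h (alphaRep hq' x).2⟩ with hr'
  have h1 : tPerm q r' OnePoint.infty = x := tPerm_alphaRep hq' x
  set c : Gamma0 N := r' * (alphaRep hq x)⁻¹ with hc
  have h2 : tPerm q c OnePoint.infty = OnePoint.infty := by
    rw [hc, tPerm_mul, h1]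
    have := tPerm_inv_apply (alphaRep hq x) (OnePoint.infty : OnePoint (ZMod q))
    rw [tPerm_alphaRep] at this
    exact this
  refine ⟨(c : SL(2, ℤ)), mem_Gamma0_mul_of_tPerm hq c h2, ?_⟩
  rw [hc]
  simp only [Subgroup.coe_mul, Subgroup.coe_inv, inv_mul_cancel_right]
  rfl

/-- **NORM COMPATIBILITY** along the level inclusions -/
theorem normAlong_alpha_inclL (h : N ∣ N') (hq' : ¬ q ∣ N') (f : S18lib.FBar (N * q)) :
    haveI : NeZero q := ⟨(Fact.out : q.Prime).ne_zero⟩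
    normAlong (heckeAlphaBar Qb N' q) (V.inclL (Nat.mul_dvd_mul_right h q) f) =
      V.inclL h (normAlong (heckeAlphaBar Qb N q) f) := by
  haveI : NeZero q := ⟨(Fact.out : q.Prime).ne_zero⟩
  have hq : ¬ q ∣ N := fun hh => hq' (hh.trans h)
  set e : Qb →+* ℂ := qbarEmb with he
  apply (ΦBar N' e).injective
  apply (toMer (Gamma0 N')).injective
  rw [toMer_ΦBar_inclL e h]
  have hL := toMer_norm_alpha hq' e (V.inclL (Nat.mul_dvd_mul_right h q) f)
  have hR := toMer_norm_alpha hq e f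
  refine hL.trans (Eq.trans ?_ hR.symm)
  refine Finset.prod_congr rfl fun x _ => ?_
  rw [Transversal.emb_apply, Transversal.emb_apply,
    toMer_ΦBar_inclL e (Nat.mul_dvd_mul_right h q)]
  obtain ⟨c, hc, hcx⟩ := exists_alphaRep_eq_mul h hq' hq x
  have hA' : (alphaTransversal hq').A x =
      (mapGL ℝ c : GL (Fin 2) ℝ) * (alphaTransversal hq).A x := by
    show (mapGL ℝ ((alphaRep hq' x : Gamma0 N') : SL(2, ℤ)) : GL (Fin 2) ℝ) =
      (mapGL ℝ c : GL (Fin 2) ℝ) * (mapGL ℝ ((alphaRep hq x : Gamma0 N) : SL(2, ℤ)) : GL (Fin 2) ℝ)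
    rw [hcx, map_mul]
  rw [merComp_eq_of_eq _ (det_pos_mul (isIntMat_mapGL c).det_pos
      ((alphaTransversal hq).isInt x).det_pos) hA',
    ← merComp_comp (isIntMat_mapGL c).det_pos ((alphaTransversal hq).isInt x).det_pos,
    merComp_toMer_of_mem (Gamma0 (N * q)) hc]

end Fermat.Agent.LSc.Xfer
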