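/-
LSc / Xfer / Level  (helper1)

The level inclusions `ι = V.inclL h : FBar N → FBar N'` (`N ∣ N'`) as maps of curves:

* `xferInputs_inclL` : integrality, fundamental identity, finiteness and the norm formula for `ι`
  (from the prelude's `α = heckeAlphaBar` via `N' = N * m`),
* `intertwines_inclL` : `ι` commutes with the coefficientwise action of `G_ℚ`,
* `wq_inclL` : `ι` commutes with the Atkin–Lehner involutions `w_q` (`q ∤ N'`),
* `normAlong_beta_inclL` : the norm compatibility along `β` (from `NormCompat` along `α`).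
-/
import Mathlib
import Fermat.Agent.LSc.Xfer.NormCompat
import Fermat.Agent.LSc.Inst.NormBeta
import Fermat.Agent.LSb.Xfer.Modular

set_option autoImplicit false
set_option linter.style.haveILetI false
set_option linter.unusedSectionVars false

noncomputable section

namespace Fermat.Agent.LSc.Xfer

open AlgebraicCurve ModularCurve AlgebraicCurve.SemilinearAut
open Fermat.Agent.S29lib Fermat.Agent.S29lib.D Fermat.Agent.S18lib
open Fermat.Agent.S37lib.HeckeInst Fermat.Agent.LSb.Val

local notation "Qb" => AlgebraicClosure ℚ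
local notation "GQ" => (AlgebraicClosure ℚ ≃ₐ[ℚ] AlgebraicClosure ℚ)

/-- the four inputs of push-forward / pull-back along `φ`, bundled -/
structure XferInputs {K F F' : Type*} [Field K] [Field F] [Field F'] [Algebra K F] [Algebra K F']
    [HasPrincipalDivisors K F'] (φ : F →ₐ[K] F') : Prop where
  int : φ.toRingHom.IsIntegral
  fi : FundamentalIdentityAlong K φ int
  fin : FiniteAlong K φ
  nf : NormFormulaAlong K φ fin

theorem xferInputs_alpha (N m : ℕ) [NeZero N] [NeZero m] :
    haveI := hasPrincipalDivisors_FB (N * m)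
    XferInputs (heckeAlphaBar Qb N m) :=
  haveI := hasPrincipalDivisors_FB (N * m)
  ⟨heckeAlphaBarIntegral N m, fundamentalIdentityAlong_alpha N m, finiteAlong_alpha N m,
    normFormulaAlong_alpha N m⟩

variable {N N' : ℕ} [NeZero N] [NeZero N']

theorem xferInputs_inclL (h : N ∣ N') :
    haveI := hasPrincipalDivisors_FB N'
    XferInputs (V.inclL h) := by
  obtain ⟨m, rfl⟩ := h
  haveI : NeZero m := ⟨fun h0 => NeZero.ne (N * m) (by rw [h0, mul_zero])⟩
  have e : V.inclL (Dvd.intro m rfl : N ∣ N * m) = heckeAlphaBar Qb N m :=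
    AlgHom.ext (inclL_dvd_mul_right N m)
  rw [e]
  exact xferInputs_alpha N m

/-- the level inclusion commutes with the coefficientwise Galois action -/
theorem intertwines_inclL (h : N ∣ N') (σ : GQ) :
    IntertwinesAlong (V.inclL h).toRingHom (GH.galAutBar N σ) (GH.galAutBar N' σ) := by
  intro x
  apply Subtype.ext
  show ((GH.galAutBar N' σ • (V.inclL h x) : modularFunctionFieldBar N') : LaurentSeries Qb) =
    ((V.inclL h (GH.galAutBar N σ • x) : modularFunctionFieldBar N') : LaurentSeries Qb)
  rw [V.coe_inclL, coe_arithmeticGalois_smul, coe_arithmeticGalois_smul, V.coe_inclL]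

theorem finrankAlong_inclL_ne_zero (h : N ∣ N') : finrankAlong Qb (V.inclL h) ≠ 0 := by
  haveI := hasPrincipalDivisors_FB N'
  letI := algebraAlong (V.inclL h)
  haveI : Module.Finite (S18lib.FBar N) (S18lib.FBar N') := (xferInputs_inclL h).fin
  exact (Module.finrank_pos (R := S18lib.FBar N) (M := S18lib.FBar N')).ne'

/-! ### Atkin–Lehner -/

variable {q : ℕ} [NeZero q]

theorem inclL_jd (h : N ∣ N') (d : ℕ) [NeZero d] (hd : d ∣ N) :
    V.inclL h (jd N d hd) = jd N' d (hd.trans h) :=
  Subtype.ext (by rw [V.coe_inclL, coe_jd, coe_jd])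

/-- **the level inclusion commutes with `w_q`** -/
theorem wq_inclL (h : N ∣ N') (hq : q.Prime) (hq' : ¬ q ∣ N') (hqN : ¬ q ∣ N)
    (f : S18lib.FBar (N * q)) :
    wq N' q hq hq' (V.inclL (Nat.mul_dvd_mul_right h q) f) =
      V.inclL (Nat.mul_dvd_mul_right h q) (wq N q hq hqN f) := by
  have key : ((wq N' q hq hq' : S18lib.FBar (N' * q) →+* S18lib.FBar (N' * q))).comp
      (V.inclL (Nat.mul_dvd_mul_right h q) : S18lib.FBar (N * q) →+* S18lib.FBar (N' * q)) =
      (V.inclL (Nat.mul_dvd_mul_right h q) : S18lib.FBar (N * q) →+* S18lib.FBar (N' * q)).comp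
        ((wq N q hq hqN : S18lib.FBar (N * q) →+* S18lib.FBar (N * q))) := by
    apply ringHom_ext_FBar (L := Qb) (N * q)
    · intro a
      simp only [RingHom.comp_apply, RingHom.coe_coe, AlgHom.commutes, AlgEquiv.commutes]
    · intro d _ hd
      simp only [RingHom.comp_apply, RingHom.coe_coe]
      rcases dvd_mul_prime_cases hq hd with hdN | ⟨d', rfl, hdN⟩
      · have e1 := inclL_jd (Nat.mul_dvd_mul_right h q) d hd
        have e2 := wq_jd N' q hq hq' d (hdN.trans h)
        have e3 := wq_jd N q hq hqN d hdN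
        have e4 := inclL_jd (Nat.mul_dvd_mul_right h q) (d * q) (Nat.mul_dvd_mul_right hdN q)
        exact (congrArg _ e1).trans (e2.trans ((congrArg _ e3).trans e4).symm)
      · haveI : NeZero d' := ⟨fun h0 => by
          subst h0
          exact (NeZero.ne (0 * q)) (zero_mul q)⟩
        have e1 := inclL_jd (Nat.mul_dvd_mul_right h q) (d' * q) hd
        have e2 := wq_jd_mul N' q hq hq' d' (hdN.trans h)
        have e3 := wq_jd_mul N q hq hqN d' hdN
        have e4 := inclL_jd (Nat.mul_dvd_mul_right h q) d' (hdN.trans (Dvd.intro _ rfl))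
        exact (congrArg _ e1).trans (e2.trans ((congrArg _ e3).trans e4).symm)
  exact congrArg (fun φ : S18lib.FBar (N * q) →+* S18lib.FBar (N' * q) => φ f) key

/-- the square of `β`'s commutes -/
theorem inclL_beta (h : N ∣ N') (y : S18lib.FBar N) :
    V.inclL (Nat.mul_dvd_mul_right h q) (heckeBetaBar Qb N q y) =
      heckeBetaBar Qb N' q (V.inclL h y) :=
  Subtype.ext (by rw [V.coe_inclL, coe_heckeBetaBar, coe_heckeBetaBar, V.coe_inclL])

/-- the square of `α`'s commutes -/
theorem inclL_alpha (h : N ∣ N') (y : S18lib.FBar N) :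
    V.inclL (Nat.mul_dvd_mul_right h q) (heckeAlphaBar Qb N q y) =
      heckeAlphaBar Qb N' q (V.inclL h y) :=
  Subtype.ext (by rw [V.coe_inclL, coe_heckeAlphaBar, coe_heckeAlphaBar, V.coe_inclL])

/-- **NORM COMPATIBILITY along `β`** -/
theorem normAlong_beta_inclL [Fact q.Prime] (h : N ∣ N') (hq' : ¬ q ∣ N')
    (f : S18lib.FBar (N * q)) :
    normAlong (heckeBetaBar Qb N' q) (V.inclL (Nat.mul_dvd_mul_right h q) f) =
      V.inclL h (normAlong (heckeBetaBar Qb N q) f) := by
  have hq : q.Prime := Fact.out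
  have hqN : ¬ q ∣ N := fun hh => hq' (hh.trans h)
  rw [Inst.normAlong_beta_eq N' q hq hq', Inst.normAlong_beta_eq N q hq hqN,
    wq_inclL h hq hq' hqN, normAlong_alpha_inclL h hq']

end Fermat.Agent.LSc.Xfer
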