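/-
LSc / Xfer / QNew  (helper1)

The `q`-new classes of `J₀(M q)` and the level inclusions: for `N ∣ N'`, `q ∤ N'` and the pull-back
`ι^* : J₀(N q) → J₀(N' q)` along `FBar (N q) ⊆ FBar (N' q)`,

* `pullLevel_smul`      : `ι^*` is `G_ℚ`-equivariant,
* `smul_eq_zero_of_pullLevel_eq_zero` : `ker ι^*` is killed by the degree `d = [FBar N' : FBar N]`,
* `pushAlpha_pullLevel`, `pushBeta_pullLevel` : on TORSION classes `α'_* ι^* = ι₀^* α_*`,
  `β'_* ι^* = ι₀^* β_*`; hence `ι^*` maps `q`-new torsion classes to `q`-new torsion classes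
  (`isQNew_pullLevel`).

`α_* = S35lib.pushAlpha`, `β_* = S35lib.pushBeta`, `IsQNew` are those of helper8's interface
`S35lib/Interface.lean`.
-/
import Mathlib
import Fermat.Agent.LSc.Xfer.BaseChange
import Fermat.Agent.LSc.Xfer.Level
import Fermat.Agent.S35lib.Interface

set_option autoImplicit false
set_option linter.style.haveILetI false
set_option linter.unusedSectionVars false

noncomputable section

namespace Fermat.Agent.LSc.Xfer

open AlgebraicCurve ModularCurve AlgebraicCurve.SemilinearAut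
open Fermat.Agent.S29lib Fermat.Agent.S29lib.D Fermat.Agent.S18lib
open Fermat.Agent.S37lib.HeckeInst Fermat.Agent.LSb.Xfer Fermat.Agent.S35lib

local notation "Qb" => AlgebraicClosure ℚ
local notation "GQ" => (AlgebraicClosure ℚ ≃ₐ[ℚ] AlgebraicClosure ℚ)

/-! ### The pull-back along a level inclusion -/

variable {N N' : ℕ} [NeZero N] [NeZero N']

/-- `ι^* : J₀(N) → J₀(N')`, `N ∣ N'` -/
def pullLevel (h : N ∣ N') : JZero N →+ JZero N' :=
  haveI := hasPrincipalDivisors_FB N'
  pic0PullbackAlong (V.inclL h) (xferInputs_inclL h).int (xferInputs_inclL h).fi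

theorem pullLevel_smul (h : N ∣ N') (σ : GQ) (x : JZero N) :
    pullLevel h (σ • x) = σ • pullLevel h x := by
  haveI := hasPrincipalDivisors_FB N'
  exact pic0PullbackAlong_smul (V.inclL h) (xferInputs_inclL h).int (xferInputs_inclL h).fi
    (intertwines_inclL h σ) x

/-- the degree of the level inclusion -/
def levelDeg (h : N ∣ N') : ℕ := finrankAlong Qb (V.inclL h)

theorem levelDeg_ne_zero (h : N ∣ N') : levelDeg h ≠ 0 := finrankAlong_inclL_ne_zero h

/-- `ker ι^*` is killed by the degree -/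
theorem smul_eq_zero_of_pullLevel_eq_zero (h : N ∣ N') {x : JZero N} (hx : pullLevel h x = 0) :
    (levelDeg h : ℤ) • x = 0 := by
  haveI := hasPrincipalDivisors_FB N'
  exact finrankAlong_smul_eq_zero_of_pullback_eq_zero (V.inclL h) (xferInputs_inclL h).int
    (xferInputs_inclL h).fi (xferInputs_inclL h).fin (xferInputs_inclL h).nf
    (GH.deg_ne_zero_FB N) hx

theorem pullLevel_mem_Tors (h : N ∣ N') {n : ℕ} {x : JZero N} (hx : x ∈ Tors N n) :
    pullLevel h x ∈ Tors N' n := by
  rw [Submodule.mem_torsionBy_iff] at hx ⊢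
  rw [← map_zsmul, hx, map_zero]

/-! ### Base change -/

variable {q : ℕ} [Fact q.Prime]

/-- **`α'_* ι^* = ι₀^* α_*` on torsion classes** -/
theorem pushAlpha_pullLevel (h : N ∣ N') (hq' : ¬ q ∣ N') {n : ℕ} (hn : n ≠ 0)
    {x : JZero (N * q)} (hx : x ∈ Tors (N * q) n) :
    haveI : NeZero q := ⟨(Fact.out : q.Prime).ne_zero⟩
    pushAlpha N' q (pullLevel (Nat.mul_dvd_mul_right h q) x) = pullLevel h (pushAlpha N q x) := by
  haveI : NeZero q := ⟨(Fact.out : q.Prime).ne_zero⟩
  haveI := hasPrincipalDivisors_FB N'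
  haveI := hasPrincipalDivisors_FB (N * q)
  haveI := hasPrincipalDivisors_FB (N' * q)
  exact pic0_pushforward_pullback_eq_of_norm (heckeAlphaBar Qb N q) (heckeAlphaBar Qb N' q)
    (V.inclL h) (V.inclL (Nat.mul_dvd_mul_right h q)) (heckeAlphaBarIntegral N q)
    (heckeAlphaBarIntegral N' q) (xferInputs_inclL h).int
    (xferInputs_inclL (Nat.mul_dvd_mul_right h q)).int (finiteAlong_alpha N q)
    (normFormulaAlong_alpha N q) (finiteAlong_alpha N' q) (normFormulaAlong_alpha N' q)
    (xferInputs_inclL h).fi (xferInputs_inclL (Nat.mul_dvd_mul_right h q)).fi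
    (fun f => normAlong_alpha_inclL h hq' f) hn ((Submodule.mem_torsionBy_iff _ _).1 hx)

/-- **`β'_* ι^* = ι₀^* β_*` on torsion classes** -/
theorem pushBeta_pullLevel (h : N ∣ N') (hq' : ¬ q ∣ N') {n : ℕ} (hn : n ≠ 0)
    {x : JZero (N * q)} (hx : x ∈ Tors (N * q) n) :
    haveI : NeZero q := ⟨(Fact.out : q.Prime).ne_zero⟩
    pushBeta N' q (pullLevel (Nat.mul_dvd_mul_right h q) x) = pullLevel h (pushBeta N q x) := by
  haveI : NeZero q := ⟨(Fact.out : q.Prime).ne_zero⟩
  haveI := hasPrincipalDivisors_FB N'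
  haveI := hasPrincipalDivisors_FB (N * q)
  haveI := hasPrincipalDivisors_FB (N' * q)
  exact pic0_pushforward_pullback_eq_of_norm (heckeBetaBar Qb N q) (heckeBetaBar Qb N' q)
    (V.inclL h) (V.inclL (Nat.mul_dvd_mul_right h q)) (heckeBetaBarIntegral N q)
    (heckeBetaBarIntegral N' q) (xferInputs_inclL h).int
    (xferInputs_inclL (Nat.mul_dvd_mul_right h q)).int (finiteAlong_beta N q)
    (normFormulaAlong_beta N q) (finiteAlong_beta N' q) (normFormulaAlong_beta N' q)
    (xferInputs_inclL h).fi (xferInputs_inclL (Nat.mul_dvd_mul_right h q)).fi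
    (fun f => normAlong_beta_inclL h hq' f) hn ((Submodule.mem_torsionBy_iff _ _).1 hx)

/-- **the pull-back of a `q`-new torsion class is `q`-new** -/
theorem isQNew_pullLevel (h : N ∣ N') (hq' : ¬ q ∣ N') {n : ℕ} (hn : n ≠ 0)
    {x : JZero (N * q)} (hx : x ∈ Tors (N * q) n) :
    haveI : NeZero q := ⟨(Fact.out : q.Prime).ne_zero⟩
    IsQNew N q x → IsQNew N' q (pullLevel (Nat.mul_dvd_mul_right h q) x) := by
  haveI : NeZero q := ⟨(Fact.out : q.Prime).ne_zero⟩
  rintro ⟨hα, hβ⟩
  exact ⟨by rw [pushAlpha_pullLevel h hq' hn hx, hα, map_zero],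
    by rw [pushBeta_pullLevel h hq' hn hx, hβ, map_zero]⟩

end Fermat.Agent.LSc.Xfer
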