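/-
LSc / Xfer / Transfer  (helper1)

Brick I4 of route FN: TRANSFER of `S35lib.FrobNewTors` ("Frobenius on the `q`-new torsion classes",
helper8's interface `S35lib/Interface.lean`) from an auxiliary level `M'' q` to any level `M' q` with
`M' ∣ M''`, `q ∤ M''`; the defect `d` is multiplied by the degree `[FBar (M'' q) : FBar (M' q)]`.
-/
import Mathlib
import Fermat.Agent.LSc.Xfer.QNew

set_option autoImplicit false
set_option linter.style.haveILetI false
set_option linter.unusedSectionVars false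

noncomputable section

namespace Fermat.Agent.LSc.Xfer

open AlgebraicCurve ModularCurve
open Fermat.Agent.S29lib Fermat.Agent.S18lib Fermat.Agent.S35lib

local notation "Qb" => AlgebraicClosure ℚ
local notation "GQ" => (AlgebraicClosure ℚ ≃ₐ[ℚ] AlgebraicClosure ℚ)

variable {N N' : ℕ} [NeZero N] [NeZero N']

/-- the pull-back along a level inclusion commutes with `(σ² - q²)(σ² - 1)` -/
theorem pullLevel_frobNewOp (h : N ∣ N') (q : ℕ) (σ : GQ) (x : JZero N) :
    pullLevel h (frobNewOp N q σ x) = frobNewOp N' q σ (pullLevel h x) := by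
  rw [frobNewOp, frobNewOp, map_sub, map_zsmul, pullLevel_smul, pullLevel_smul, map_sub,
    pullLevel_smul, pullLevel_smul]

/-- **TRANSFER (I4)**: from the level `M'' q` to the level `M' q`, `M' ∣ M''`, `q ∤ M''` -/
theorem frobNewTors_of_dvd {M' M'' q p : ℕ} [NeZero M'] [NeZero M''] [NeZero q]
    (hq : q.Prime) (h : M' ∣ M'') (hqM : ¬ q ∣ M'') (hp : p.Prime) :
    FrobNewTors M'' q p → FrobNewTors M' q p := by
  haveI : Fact q.Prime := ⟨hq⟩
  rintro ⟨d, hd, H⟩
  refine ⟨d * levelDeg (Nat.mul_dvd_mul_right h q), mul_ne_zero hd (levelDeg_ne_zero _), ?_⟩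
  intro A hA σ hσ k x hx hnew
  have hn : p ^ k ≠ 0 := pow_ne_zero k hp.ne_zero
  have h1 := H A hA σ hσ k (pullLevel (Nat.mul_dvd_mul_right h q) x)
    (pullLevel_mem_Tors _ hx) (isQNew_pullLevel h hqM hn hx hnew)
  rw [← pullLevel_frobNewOp, ← map_zsmul] at h1
  have h2 := smul_eq_zero_of_pullLevel_eq_zero _ h1
  rw [Nat.cast_mul, mul_comm (d : ℤ), mul_smul]
  exact h2

/-- the same with the upper level written as `M * c` -/
theorem frobNewTors_of_mul {M c q p : ℕ} [NeZero M] [NeZero c] [NeZero q]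
    (hq : q.Prime) (hqM : ¬ q ∣ M * c) (hp : p.Prime) :
    FrobNewTors (M * c) q p → FrobNewTors M q p :=
  frobNewTors_of_dvd hq (Dvd.intro c rfl) hqM hp

end Fermat.Agent.LSc.Xfer
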