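/-
LSc / Xfer / Assemble  (helper1)

`S35lib.FrobNewTors M q p` at EVERY pair `(M, q)`, `q ∤ M`, from `FrobNewTors` at the special pairs
(`q ≥ 5`, or `q = 2 ∧ 9 ∣ M`, or `q = 3 ∧ 4 ∣ M`; this disjunction is `LSb.GoodPair M q` and
`LSb.Xfer.SpecialLevel M q` unfolded): TRANSFER from `9 M` resp. `4 M`.
-/
import Mathlib
import Fermat.Agent.LSc.Xfer.Transfer

set_option autoImplicit false
set_option linter.style.haveILetI false
set_option linter.unusedSectionVars false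

noncomputable section

namespace Fermat.Agent.LSc.Xfer

open ModularCurve Fermat.Agent.S35lib

/-- **Assembly**: (FN) at the special pairs implies (FN) at all pairs. -/
theorem frobNewTors_of_special {p : ℕ} (hp : p.Prime)
    (H : ∀ (M q : ℕ) [NeZero M] [NeZero q], q.Prime → ¬ q ∣ M → q ≠ p →
      (5 ≤ q ∨ (q = 2 ∧ 9 ∣ M) ∨ (q = 3 ∧ 4 ∣ M)) → FrobNewTors M q p)
    (M q : ℕ) [NeZero M] [NeZero q] (hq : q.Prime) (hqM : ¬ q ∣ M) (hqp : q ≠ p) :
    FrobNewTors M q p := by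
  have hM0 : M ≠ 0 := NeZero.ne M
  -- it suffices to find a multiple `M'` of `M` with `q ∤ M'` and `(M', q)` special
  suffices hex : ∃ M' : ℕ, M ∣ M' ∧ M' ≠ 0 ∧ ¬ q ∣ M' ∧
      (5 ≤ q ∨ (q = 2 ∧ 9 ∣ M') ∨ (q = 3 ∧ 4 ∣ M')) by
    obtain ⟨M', hMM', hM'0, hqM', hsp⟩ := hex
    haveI : NeZero M' := ⟨hM'0⟩
    exact frobNewTors_of_dvd hq hMM' hqM' hp (H M' q hq hqM' hqp hsp)
  by_cases h5 : 5 ≤ q
  · exact ⟨M, dvd_rfl, hM0, hqM, Or.inl h5⟩
  · have hq23 : q = 2 ∨ q = 3 := by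
      have h2 := hq.two_le
      have : q ≠ 4 := by rintro rfl; exact absurd hq (by norm_num)
      omega
    rcases hq23 with rfl | rfl
    · refine ⟨9 * M, Dvd.intro_left 9 rfl, mul_ne_zero (by norm_num) hM0, ?_,
        Or.inr (Or.inl ⟨rfl, Dvd.intro M rfl⟩)⟩
      intro h
      rcases (Nat.Prime.dvd_mul Nat.prime_two).1 h with h | h
      · norm_num at h
      · exact hqM h
    · refine ⟨4 * M, Dvd.intro_left 4 rfl, mul_ne_zero (by norm_num) hM0, ?_,
        Or.inr (Or.inr ⟨rfl, Dvd.intro M rfl⟩)⟩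
      intro h
      rcases (Nat.Prime.dvd_mul Nat.prime_three).1 h with h | h
      · norm_num at h
      · exact hqM h

end Fermat.Agent.LSc.Xfer
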